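import Fermat.Agent.S56.Font.LT.Sub

/-!
# S56 / Font / Root / Rig : `p`-th roots near `1`          (WP FONT-RIG)

`v` a valuation on a field `C` (value group written multiplicatively), `p` a prime.

* `exists_one_add_pow_eq` : for `v z ≤ 1`:  `(1+z)^p = 1 + z^p + p z S` with `v (S - 1) ≤ v z`.
  PROOF. Mathlib `add_pow_prime_eq` (or `add_pow` + `Nat.Prime.dvd_choose_self`):
  `S = ∑_{0<k<p} z^(k-1) (choose p k / p)`; the term `k = 1` is `1`, all others are (natural number) `* z^(k-1)`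
  with `k - 1 ≥ 1`; `v (n : C) ≤ 1` for `n : ℕ` (induction, ultrametric inequality).
* (RIG1) `eq_zero_of_one_add_pow_eq_one` : `(1+z)^p = 1`, `v z ^ (p-1) < v p` ⟹ `z = 0`.
  PROOF. `v z < 1` (otherwise `1 ≤ v z ^ (p-1) < v p ≤ 1`).  `0 = z^p + p z S = z (z^(p-1) + p S)`, `v S = 1`
  (as `v (S - 1) ≤ v z < 1`), so `v (p S) = v p > v (z^(p-1))`: the bracket is `≠ 0`.
* (ROOT1) `exists_fixBy_root` : `u` fixed by `N`, `v (u - 1) ≤ v p * τ`, `τ^(p-1) < v p` ⟹ `u` has a `p`-th root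
  fixed by `N`.
  PROOF. `X^p - u = ∏_{x ∈ roots} (X - x)` (`IsAlgClosed.splits`, monic, `p` roots with multiplicity); at
  `X = 1`: `∏ v (1 - x) = v (1 - u) ≤ v p * τ`.  Let `ρ` be a root with `μ := v (1 - ρ)` minimal; then
  `μ^p ≤ v p * τ` (`Multiset.pow_card_le_prod` or by hand).  CLAIM `μ^(p-1) < v p`: otherwise
  `v p ^ p ≤ μ^(p(p-1)) ≤ (v p * τ)^(p-1) = v p^(p-1) τ^(p-1) < v p ^ p`.  In particular `μ < 1`, `v ρ = 1`.
  For `σ ∈ N`: `σ ρ` is a root of `X^p - u` with `v (σ ρ - 1) = μ`; `z := σ ρ / ρ - 1` satisfies `(1+z)^p = 1`,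
  `v z = v (σ ρ - ρ) ≤ μ`; RIG1 gives `σ ρ = ρ`.
-/

set_option autoImplicit false

namespace Fermat.Agent.S56.Font

open Polynomial MulAction

variable {Γ : Type*} [Group Γ] {C : Type*} [Field C] [MulSemiringAction Γ C]
  {Γ₀ : Type*} [LinearOrderedCommGroupWithZero Γ₀] {v : Valuation C Γ₀} {p : ℕ}

theorem exists_one_add_pow_poly_rig {q : ℕ} (hq : q.Prime) :
    ∃ E : Polynomial ℤ, (1 + X) ^ q = 1 + Polynomial.C (q : ℤ) * X + X ^ q + Polynomial.C (q : ℤ) * X ^ 2 * E := by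
  set P : Polynomial ℤ := (1 + X) ^ q - 1 - Polynomial.C (q : ℤ) * X - X ^ q with hP
  have hcoef : ∀ i, P.coeff i = (q.choose i : ℤ) - (if i = 0 then 1 else 0)
      - (q : ℤ) * (if i = 1 then 1 else 0) - (if i = q then 1 else 0) := by
    intro i
    rw [hP, coeff_sub, coeff_sub, coeff_sub, coeff_one_add_X_pow, coeff_C_mul, coeff_X, coeff_X_pow,
      coeff_one]
    simp [eq_comm]
  have h2 := hq.two_le
  have hdvd : Polynomial.C (q : ℤ) ∣ P := by
    rw [C_dvd_iff_dvd_coeff]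
    intro i
    rw [hcoef]
    rcases Nat.lt_trichotomy i q with hi | hi | hi
    · rcases Nat.eq_zero_or_pos i with rfl | hi0
      · simp [hq.ne_zero.symm]
      · have h1 : (q : ℤ) ∣ (q.choose i : ℤ) := by
          exact_mod_cast hq.dvd_choose_self hi0.ne' hi
        rw [if_neg hi0.ne', if_neg hi.ne, sub_zero, sub_zero]
        exact dvd_sub h1 (Dvd.intro _ rfl)
    · subst hi
      simp [hq.ne_zero, hq.ne_one]
    · rw [Nat.choose_eq_zero_of_lt hi, if_neg (by omega), if_neg (by omega), if_neg (by omega)]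
      simp
  obtain ⟨P', hP'⟩ := hdvd
  have hX : X ^ 2 ∣ P' := by
    rw [X_pow_dvd_iff]
    intro d hd
    have h3 : (q : ℤ) * P'.coeff d = 0 := by
      rw [← coeff_C_mul, ← hP', hcoef]
      interval_cases d
      · simp [hq.ne_zero.symm]
      · simp [hq.ne_one.symm]
    exact (mul_eq_zero.1 h3).resolve_left (by exact_mod_cast hq.ne_zero)
  obtain ⟨E, hE⟩ := hX
  refine ⟨E, ?_⟩
  have : (1 + X) ^ q = P + 1 + Polynomial.C (q : ℤ) * X + X ^ q := by rw [hP]; ring
  rw [this, hP', hE]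
  ring

theorem exists_one_add_pow_ring_rig {R : Type*} [CommRing R] {q : ℕ} (hq : q.Prime) (x : R) :
    ∃ E : R, (1 + x) ^ q = 1 + q * x + x ^ q + q * x ^ 2 * E := by
  obtain ⟨E, hE⟩ := exists_one_add_pow_poly_rig hq
  refine ⟨Polynomial.aeval x E, ?_⟩
  have := congrArg (Polynomial.aeval x) hE
  simpa using this

theorem val_natCast_le_one_rig (v : Valuation C Γ₀) (n : ℕ) : v (n : C) ≤ 1 :=
  (Valuation.mem_integer_iff v _).1 (natCast_mem v.integer n)

/-- `(1+z)^p - 1 = z^p + p z S` with `v (S - 1) ≤ v z` (for `v z ≤ 1`). -/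
theorem exists_one_add_pow_eq (hp : p.Prime) (v : Valuation C Γ₀) {z : C} (hz : v z ≤ 1) :
    ∃ S : C, v (S - 1) ≤ v z ∧ (1 + z) ^ p = 1 + z ^ p + p * z * S := by
  obtain ⟨E, hE⟩ := exists_one_add_pow_ring_rig hp (⟨z, hz⟩ : v.integer)
  have h1 := congrArg (fun y : v.integer => (y : C)) hE
  simp only [Subring.coe_add, Subring.coe_mul, Subring.coe_pow, Subring.coe_one,
    SubringClass.coe_natCast] at h1
  refine ⟨1 + z * (E : C), ?_, ?_⟩
  · rw [add_sub_cancel_left, map_mul]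
    exact mul_le_of_le_one_right' ((Valuation.mem_integer_iff v _).1 E.2)
  · rw [h1]
    ring

/-- (RIG1) -/
theorem eq_zero_of_one_add_pow_eq_one (hp : p.Prime) {z : C} (hz : (1 + z) ^ p = 1)
    (hv : v z ^ (p - 1) < v (p : C)) : z = 0 := by
  have hp1 : v (p : C) ≤ 1 := val_natCast_le_one_rig v p
  have hz1 : v z < 1 := by
    by_contra hcon
    exact absurd (lt_of_le_of_lt (one_le_pow₀ (not_lt.1 hcon)) hv) (not_lt.2 hp1)
  obtain ⟨S, hS, hexp⟩ := exists_one_add_pow_eq hp v hz1.le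
  by_contra hz0
  have hS1 : v S = 1 := by
    have := Valuation.map_one_add_of_lt (v := v) (lt_of_le_of_lt hS hz1)
    rwa [add_sub_cancel] at this
  obtain ⟨m, hm⟩ : ∃ m, p = m + 1 := ⟨p - 1, (Nat.sub_add_cancel hp.one_le).symm⟩
  have hm' : p - 1 = m := by omega
  have h1 : z ^ m = - ((p : C) * S) := by
    apply mul_left_cancel₀ hz0
    have h2 : z ^ p = z * z ^ m := by rw [hm, pow_succ']
    rw [hz, h2] at hexp
    linear_combination -hexp
  have h3 : v z ^ m = v (p : C) := by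
    rw [← map_pow, h1, Valuation.map_neg, map_mul, hS1, mul_one]
  rw [hm', h3] at hv
  exact lt_irrefl _ hv

/-- (ROOT1) -/
theorem exists_fixBy_root [IsAlgClosed C] (hp : p.Prime) {N : Subgroup Γ}
    (hinv : ∀ (g : Γ) (x : C), v (g • x) = v x) {u : C} (hu : FixBy N u) {τ : Γ₀}
    (hτ : τ ^ (p - 1) < v (p : C)) (hε : v (u - 1) ≤ v (p : C) * τ) :
    ∃ ρ : C, FixBy N ρ ∧ ρ ^ p = u := by
  have hp1 : v (p : C) ≤ 1 := val_natCast_le_one_rig v p
  have hp0 : 0 < v (p : C) := lt_of_le_of_lt zero_le hτ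
  -- a root close to `1`
  obtain ⟨ρ, hρu, hρ⟩ : ∃ ρ : C, ρ ^ p = u ∧ v (1 - ρ) ^ (p - 1) < v (p : C) := by
    by_contra hcon
    push Not at hcon
    set P : C[X] := X ^ p - Polynomial.C u with hP
    have hmon : P.Monic := monic_X_pow_sub_C u hp.ne_zero
    have hspl := IsAlgClosed.splits P
    have hcard : P.roots.card = p := by
      rw [← hspl.natDegree_eq_card_roots, hP, natDegree_X_pow_sub_C]
    have heval := hspl.eval_eq_prod_roots_of_monic hmon 1
    have h1 : v (1 - u) ^ (p - 1) = ((P.roots.map fun x => v (1 - x) ^ (p - 1))).prod := by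
      have h2 : P.eval 1 = 1 - u := by simp [hP]
      rw [← h2, heval, map_multiset_prod, Multiset.map_map, ← Multiset.prod_map_pow]
      rfl
    have h3 : v (p : C) ^ p ≤ v (1 - u) ^ (p - 1) := by
      rw [h1]
      have h4 := Multiset.pow_card_le_prod (s := P.roots.map fun x => v (1 - x) ^ (p - 1))
        (a := v (p : C)) (by
          intro y hy
          obtain ⟨x, hx, rfl⟩ := Multiset.mem_map.1 hy
          refine hcon x ?_
          have := (mem_roots'.1 hx).2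
          rw [IsRoot.def, hP] at this
          simpa [sub_eq_zero] using this)
      rwa [Multiset.card_map, hcard] at h4
    have h5 : v (1 - u) ^ (p - 1) < v (p : C) ^ p := by
      rw [Valuation.map_sub_swap]
      calc v (u - 1) ^ (p - 1) ≤ (v (p : C) * τ) ^ (p - 1) := pow_le_pow_left₀ zero_le hε _
        _ = v (p : C) ^ (p - 1) * τ ^ (p - 1) := mul_pow _ _ _
        _ < v (p : C) ^ (p - 1) * v (p : C) := by
            exact mul_lt_mul_of_pos_left hτ (pow_pos hp0 _)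
        _ = v (p : C) ^ p := by
            rw [← pow_succ, Nat.sub_add_cancel hp.one_le]
    exact absurd h3 (not_le.2 h5)
  have hμ1 : v (1 - ρ) < 1 := by
    by_contra hcon
    exact absurd (lt_of_le_of_lt (one_le_pow₀ (not_lt.1 hcon)) hρ) (not_lt.2 hp1)
  have hvρ : v ρ = 1 := by
    have := Valuation.map_one_sub_of_lt (v := v) hμ1
    rwa [sub_sub_cancel] at this
  have hρ0 : ρ ≠ 0 := by
    intro h0
    rw [h0, map_zero] at hvρ
    exact zero_ne_one hvρ
  refine ⟨ρ, fun σ hσ => ?_, hρu⟩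
  have hσu : (σ • ρ) ^ p = u := by rw [← smul_pow', hρu, hu σ hσ]
  have hz : (1 + ((σ • ρ) / ρ - 1)) ^ p = 1 := by
    rw [add_sub_cancel, div_pow, hσu, hρu, div_self]
    rw [← hρu]
    exact pow_ne_zero _ hρ0
  have hvz : v ((σ • ρ) / ρ - 1) ≤ v (1 - ρ) := by
    have h1 : (σ • ρ) / ρ - 1 = (σ • ρ - ρ) / ρ := by field_simp
    rw [h1, map_div₀, hvρ, div_one]
    have h2 : σ • ρ - ρ = (1 - ρ) - σ • (1 - ρ) := by
      rw [smul_sub, smul_one]
      ring
    rw [h2]
    exact Valuation.map_sub_le (v := v) (x := 1 - ρ) (y := σ • (1 - ρ)) (g := v (1 - ρ)) le_rfl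
      (hinv σ _).le
  have h0 := eq_zero_of_one_add_pow_eq_one (v := v) hp hz
    (lt_of_le_of_lt (pow_le_pow_left₀ zero_le hvz _) hρ)
  rw [sub_eq_zero, div_eq_one_iff_eq hρ0] at h0
  exact h0

end Fermat.Agent.S56.Font
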