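import Fermat.Agent.S56.Font.Root.Rig

/-!
# S56 / Font / Root / NonPow : elements of level `l`, `p ∤ l < p e/(p-1)`, are not `p`-th powers   (WP FONT-NONPOW)

`L = K₀(π)` totally ramified of degree `e` over `K₀` (`IsTot`), `γ = v π`, `γ^e = v p`.
CLAIM: `y ∈ L`, `v (y^p - 1) = γ^l`, `0 < l`, `p ∤ l`, `(p-1) l < p e` is impossible.

PROOF. `v (y^p - 1) < 1` so `v (y^p) = 1`, `v y = 1`, `z := y - 1` has `v z ≤ 1`.  By
`exists_one_add_pow_eq`: `y^p - 1 = z^p + p z S`, `v (S - 1) ≤ v z`, in particular `v S ≤ 1`.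
If `v z = 1` then `v (z^p) = 1 > v (p z S)` and `v (y^p - 1) = 1`: no.  So `v z < 1`, `v S = 1`; `z ≠ 0`
(otherwise `y^p - 1 = 0` has valuation `0 ≠ γ^l`); `z` is fixed by `Stab π`, so `v z = γ^k`, `k : ℤ`
(`IsTot.exists_val_eq_zpow`), `k ≥ 1`.  `v (z^p) = γ^(p k)`, `v (p z S) = γ^(e + k)`.
* `p k < e + k`: `v (y^p - 1) = γ^(p k)`, `l = p k`: contradicts `p ∤ l`.
* `p k > e + k`: `l = e + k`, `(p-1) k > e`, `(p-1) l = (p-1) e + (p-1) k > p e`: no.
* `p k = e + k`: `v (y^p - 1) ≤ γ^(p k)`, `l ≥ p k`, `(p-1) k = e`, `(p-1) l ≥ p (p-1) k = p e`: no.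
(`zpow_right_strictAnti₀`, `zpow_val_injective`, `Valuation.map_add_eq_of_lt_right/right`.)
-/

set_option autoImplicit false

namespace Fermat.Agent.S56.Font

open Polynomial MulAction

variable {Γ : Type*} [Group Γ] {C : Type*} [Field C] [MulSemiringAction Γ C]
  {Γ₀ : Type*} [LinearOrderedCommGroupWithZero Γ₀] {v : Valuation C Γ₀} {p : ℕ}

/-- (NONPOW) -/
theorem not_pow_of_level (hp : p.Prime) (h : IsSH Γ v (p : C)) {π : C} {e : ℕ}
    (hπ : IsTot Γ v (p : C) π e) {y : C} (hy : FixBy (stabilizer Γ π) y) {l : ℕ}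
    (hl : v (y ^ p - 1) = v π ^ l) (hl0 : 0 < l) (hpl : ¬ p ∣ l) (hlt : (p - 1) * l < p * e) : False := by
  have hγ0 : 0 < v π := val_pos_of_pow h hπ.pow
  have hγ1 : v π < 1 := val_lt_one_of_pow h hπ.pow
  have hanti : StrictAnti (fun m : ℤ => v π ^ m) := zpow_right_strictAnti₀ hγ0 hγ1
  have hvp : v (p : C) < 1 := h.lt_one
  -- `v y = 1`
  have h1 : v (y ^ p - 1) < 1 := by
    rw [hl]
    exact pow_lt_one₀ zero_le hγ1 hl0.ne'
  have h2 : v (y ^ p) = 1 := by
    have e1 : y ^ p = (y ^ p - 1) + 1 := by ring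
    rw [e1, Valuation.map_add_eq_of_lt_right v (by rwa [map_one]), map_one]
  have h3 : v y = 1 := by
    rw [map_pow] at h2
    exact (pow_eq_one_iff.mp h2).resolve_right hp.ne_zero
  set z : C := y - 1 with hz
  have hz1 : v z ≤ 1 := by
    refine (Valuation.map_sub v y 1).trans ?_
    rw [h3, map_one, max_self]
  obtain ⟨S, hS, hSeq⟩ := exists_one_add_pow_eq hp v hz1
  have hyz : 1 + z = y := by rw [hz]; ring
  rw [hyz] at hSeq
  have hsum : y ^ p - 1 = z ^ p + p * z * S := by rw [hSeq]; ring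
  have hS1 : v S ≤ 1 := by
    have e1 : S = (S - 1) + 1 := by ring
    rw [e1]
    refine (Valuation.map_add v _ _).trans ?_
    rw [map_one]
    exact max_le (hS.trans hz1) le_rfl
  -- `v z < 1`
  have hzlt : v z < 1 := by
    refine lt_of_le_of_ne hz1 fun hz1' => ?_
    have h4 : v ((p : C) * z * S) < v (z ^ p) := by
      rw [map_pow, hz1', one_pow, map_mul, map_mul, hz1', mul_one]
      exact lt_of_le_of_lt (mul_le_of_le_one_right zero_le hS1) hvp
    rw [hsum, Valuation.map_add_eq_of_lt_left v h4, map_pow, hz1', one_pow] at h1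
    exact lt_irrefl _ h1
  have hSv : v S = 1 := by
    have e1 : S = (S - 1) + 1 := by ring
    rw [e1, Valuation.map_add_eq_of_lt_right v (by rw [map_one]; exact lt_of_le_of_lt hS hzlt),
      map_one]
  have hz0 : z ≠ 0 := by
    intro h0
    rw [hsum, h0, zero_pow hp.ne_zero, mul_zero, zero_mul, add_zero, map_zero] at hl
    exact (pow_pos hγ0 l).ne hl
  have hzfix : FixBy (stabilizer Γ π) z := hy.sub (fun s _ => smul_one s)
  obtain ⟨k, hk⟩ := hπ.exists_val_eq_zpow h hzfix hz0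
  have hk1 : 0 < k := by
    have : v π ^ k < v π ^ (0 : ℤ) := by rw [← hk, zpow_zero]; exact hzlt
    exact hanti.lt_iff_gt.mp this
  have hA : v (z ^ p) = v π ^ ((p : ℤ) * k) := by
    rw [map_pow, hk, ← zpow_natCast, ← zpow_mul, mul_comm]
  have hB : v ((p : C) * z * S) = v π ^ ((e : ℤ) + k) := by
    rw [map_mul, map_mul, hSv, mul_one, hk, ← hπ.pow, zpow_add₀ hγ0.ne', zpow_natCast]
  have hl' : v (y ^ p - 1) = v π ^ (l : ℤ) := by rw [hl, zpow_natCast]
  have hp2 : (2 : ℤ) ≤ p := by exact_mod_cast hp.two_le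
  have hlt' : ((p : ℤ) - 1) * l < p * e := by
    have h5 : (((p - 1 : ℕ) : ℤ)) = (p : ℤ) - 1 := by
      rw [Nat.cast_sub hp.one_le, Nat.cast_one]
    have h6 : (((p - 1) * l : ℕ) : ℤ) < ((p * e : ℕ) : ℤ) := by exact_mod_cast hlt
    rw [Nat.cast_mul, Nat.cast_mul, h5] at h6
    exact h6
  rcases lt_trichotomy ((p : ℤ) * k) ((e : ℤ) + k) with hc | hc | hc
  · -- `l = p k`
    have h4 : v ((p : C) * z * S) < v (z ^ p) := by
      rw [hA, hB]
      exact hanti hc
    rw [hsum, Valuation.map_add_eq_of_lt_left v h4, hA] at hl'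
    have h5 : (p : ℤ) * k = l := hanti.injective hl'
    apply hpl
    have : (p : ℤ) ∣ (l : ℤ) := ⟨k, h5.symm⟩
    exact_mod_cast this
  · -- `l ≥ p k`
    have h4 : v (y ^ p - 1) ≤ v π ^ ((p : ℤ) * k) := by
      rw [hsum]
      refine (Valuation.map_add v _ _).trans ?_
      rw [hA, hB, ← hc, max_self]
    rw [hl'] at h4
    have h5 : (p : ℤ) * k ≤ l := hanti.le_iff_ge.mp h4
    nlinarith
  · -- `l = e + k`
    have h4 : v (z ^ p) < v ((p : C) * z * S) := by
      rw [hA, hB]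
      exact hanti hc
    rw [hsum, Valuation.map_add_eq_of_lt_right v h4, hB] at hl'
    have h5 : (e : ℤ) + k = l := hanti.injective hl'
    nlinarith

end Fermat.Agent.S56.Font
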