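import Fermat.Agent.S56.Font.LT.Sub

/-!
# S56 / Font / Root / Pigeon : finiteness of the Kummer classes dying in a finite extension   (WP FONT-PIGEON)

`N ≤ N' ≤ Γ`, `N` of finite index, `Γ` acting on the field `C` by ring automorphisms.
CLAIM: there is `M` such that among any `M` elements `ρ_i ≠ 0` fixed by `N` with `ρ_i^p` fixed by `N'`, two
have their quotient fixed by `N'`.

PROOF. For `σ ∈ N'`: `χ_i(σ) := σ ρ_i / ρ_i` satisfies `χ_i(σ)^p = σ(ρ_i^p)/ρ_i^p = 1`, so it lies in the finite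
set `nthRootsFinset p 1` (`p ≠ 0`), and `χ_i(σ ν) = χ_i(σ)` for `ν ∈ N`.  `Q := ↥N' ⧸ N.subgroupOf N'` is finite
(`relIndex ≠ 0` because `N.index ≠ 0`: `Subgroup.relIndex_mul_index`).  So `i ↦ (q ↦ χ_i(q.out))` maps `Fin M` to
the finite type `Q → nthRootsFinset p 1`; take `M` = its cardinality `+ 1`
(`Fintype.exists_ne_map_eq_of_card_lt`).  If `χ_i(q.out) = χ_j(q.out)` for all `q` then `χ_i = χ_j` on `N'`
(`σ = q.out * ν`, `QuotientGroup.mk_out_eq_mul`), i.e. `σ (ρ_i/ρ_j) = ρ_i/ρ_j`.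
-/

set_option autoImplicit false

namespace Fermat.Agent.S56.Font

open Polynomial MulAction

variable {Γ : Type*} [Group Γ] {C : Type*} [Field C] [MulSemiringAction Γ C] {p : ℕ}

/-- (PIGEON) -/
theorem exists_pair_fixBy_div (hp : p.Prime) {N N' : Subgroup Γ} (hle : N ≤ N') (hN : N.index ≠ 0) :
    ∃ M : ℕ, ∀ ρ : Fin M → C, (∀ i, ρ i ≠ 0) → (∀ i, FixBy N (ρ i)) → (∀ i, FixBy N' (ρ i ^ p)) →
      ∃ i j, i ≠ j ∧ FixBy N' (ρ i / ρ j) := by
  classical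
  have hrel : N.relIndex N' ≠ 0 := by
    intro h0
    apply hN
    rw [← Subgroup.relIndex_mul_index hle, h0, zero_mul]
  have hfi : (N.subgroupOf N').FiniteIndex := ⟨hrel⟩
  have hfinQ : Finite (↥N' ⧸ N.subgroupOf N') := Subgroup.finite_quotient_of_finiteIndex
  have : Fintype (↥N' ⧸ N.subgroupOf N') := Fintype.ofFinite _
  refine ⟨Fintype.card ((↥N' ⧸ N.subgroupOf N') → nthRootsFinset p (1 : C)) + 1,
    fun ρ hρ0 hρN hρN' => ?_⟩
  have hroot : ∀ (i : Fin _) (σ : N'), ((σ : Γ) • ρ i) / ρ i ∈ nthRootsFinset p (1 : C) := by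
    intro i σ
    rw [mem_nthRootsFinset hp.pos, div_pow, ← smul_pow', hρN' i σ σ.2,
      div_self (pow_ne_zero _ (hρ0 i))]
  let f : Fin (Fintype.card ((↥N' ⧸ N.subgroupOf N') → nthRootsFinset p (1 : C)) + 1) →
      ((↥N' ⧸ N.subgroupOf N') → nthRootsFinset p (1 : C)) :=
    fun i q => ⟨((q.out : Γ) • ρ i) / ρ i, hroot i q.out⟩
  obtain ⟨i, j, hij, hf⟩ := Fintype.exists_ne_map_eq_of_card_lt f (by simp)
  refine ⟨i, j, hij, fun σ hσ => ?_⟩
  obtain ⟨ν, hν⟩ := QuotientGroup.mk_out_eq_mul (N.subgroupOf N') (⟨σ, hσ⟩ : N')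
  set q : ↥N' ⧸ N.subgroupOf N' := QuotientGroup.mk (⟨σ, hσ⟩ : N') with hq
  have hνN : ((ν : N') : Γ) ∈ N := ν.2
  have hout : ∀ k, (q.out : Γ) • ρ k = σ • ρ k := by
    intro k
    have h1 : (q.out : Γ) = σ * ((ν : N') : Γ) := congrArg Subtype.val hν
    rw [h1, mul_smul, hρN k _ hνN]
  have h2 : ((q.out : Γ) • ρ i) / ρ i = ((q.out : Γ) • ρ j) / ρ j :=
    congrArg Subtype.val (congrFun hf q)
  rw [hout, hout] at h2
  rw [smul_div₀']
  have hσj : σ • ρ j ≠ 0 := by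
    intro h0
    apply hρ0 j
    have := congrArg (fun y => σ⁻¹ • y) h0
    simpa using this
  rw [div_eq_div_iff (hρ0 i) (hρ0 j)] at h2
  rw [div_eq_div_iff hσj (hρ0 j)]
  linear_combination h2

end Fermat.Agent.S56.Font
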