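import Fermat.Agent.S56.Font.LT.Sub

/-!
# S56 / Font / Root / Res : the residue field of `K₀` is infinite            (WP FONT-RES)

`(Γ, C, v, p)` strictly henselian, `C` algebraically closed (so of characteristic `0`: `(p : C) ≠ 0` and
`v p < 1`; any characteristic `ℓ ≠ p` is also harmless).
CLAIM: for every `M` there are `c_1 .. c_M ∈ O_{K₀}` with `v (c_i - c_j) = 1` for `i ≠ j`.

PROOF. Take `m` with `M ≤ p^m - 1 =: n`; `p ∤ n`, so `v (n : C) = 1` (Bezout `a n + b p = 1` in `ℤ`,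
`v (integer) ≤ 1`, `v p < 1`), in particular `(n : C) ≠ 0` and `C` contains a primitive `n`-th root of unity `ζ`
(`IsAlgClosed.exists_primitiveRoot`/`HasEnoughRootsOfUnity`, `NeZero (n : C)`).  For `ξ ≠ 1`, `ξ^n = 1`:
`v (ξ - 1) = 1`.  [`v ξ = 1`.  `0 = 1 + ξ + .. + ξ^(n-1)` (`mul_geom_sum`), and if `v (ξ - 1) < 1` then
`v (ξ^k - 1) < 1` for all `k`, so `v (∑_{k<n} ξ^k - n) < 1`, i.e. `v n < 1`: contradiction.]
Hence `v (ζ^i - ζ^j) = 1` for `i ≠ j < n`.  By `IsSH.res` choose `c_i` fixed with `v (ζ^i - c_i) < 1`; then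
`v c_i ≤ 1` and `v (c_i - c_j) = 1`.
-/

set_option autoImplicit false

namespace Fermat.Agent.S56.Font

open Polynomial MulAction

variable {Γ : Type*} [Group Γ] {C : Type*} [Field C] [MulSemiringAction Γ C]
  {Γ₀ : Type*} [LinearOrderedCommGroupWithZero Γ₀] {v : Valuation C Γ₀} {p : ℕ}

namespace ResAux

theorem val_eq_one_of_pow_eq_one {ξ : C} {n : ℕ} (hn : n ≠ 0) (h : ξ ^ n = 1) : v ξ = 1 := by
  have h1 : v ξ ^ n = 1 := by rw [← map_pow, h, map_one]
  rcases lt_trichotomy (v ξ) 1 with h2 | h2 | h2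
  · exact absurd h1 (pow_lt_one₀ zero_le h2 hn).ne
  · exact h2
  · exact absurd h1 (one_lt_pow₀ h2 hn).ne'

theorem val_geom_le {ξ : C} (hξ : v ξ = 1) (k : ℕ) : v (∑ j ∈ Finset.range k, ξ ^ j) ≤ 1 := by
  refine Valuation.map_sum_le v fun j _ => ?_
  rw [map_pow, hξ, one_pow]

/-- a nontrivial root of unity of order prime to the residue characteristic is not congruent to `1` -/
theorem val_sub_one {ξ : C} {n : ℕ} (hn : v (n : C) = 1) (h : ξ ^ n = 1) (h1 : ξ ≠ 1) :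
    v (ξ - 1) = 1 := by
  have hn0 : n ≠ 0 := by
    rintro rfl
    rw [Nat.cast_zero, map_zero] at hn
    exact zero_ne_one hn
  have hξ : v ξ = 1 := val_eq_one_of_pow_eq_one hn0 h
  have hle : v (ξ - 1) ≤ 1 := by
    refine (Valuation.map_sub v _ _).trans ?_
    rw [hξ, map_one, max_self]
  refine le_antisymm hle (not_lt.1 fun hlt => ?_)
  have hsum : ∑ k ∈ Finset.range n, ξ ^ k = 0 := by
    have := mul_geom_sum ξ n
    rw [h, sub_self] at this
    exact (mul_eq_zero.1 this).resolve_left (sub_ne_zero.2 h1)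
  have h2 : (∑ k ∈ Finset.range n, (ξ ^ k - 1)) = - (n : C) := by
    rw [Finset.sum_sub_distrib, hsum, Finset.sum_const, Finset.card_range, nsmul_eq_mul, mul_one,
      zero_sub]
  have h3 : v (∑ k ∈ Finset.range n, (ξ ^ k - 1)) < 1 := by
    refine Valuation.map_sum_lt v one_ne_zero fun k _ => ?_
    rw [← mul_geom_sum, map_mul]
    calc v (ξ - 1) * v (∑ j ∈ Finset.range k, ξ ^ j) ≤ v (ξ - 1) * 1 :=
          mul_le_mul_right (val_geom_le hξ k) _
      _ < 1 := by rwa [mul_one]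
  rw [h2, Valuation.map_neg, hn] at h3
  exact lt_irrefl _ h3

end ResAux

/-- (RES) the residue field of `K₀` is infinite. -/
theorem exists_incongruent [IsAlgClosed C] (hp : p.Prime) (h : IsSH Γ v (p : C)) (M : ℕ) :
    ∃ c : Fin M → C, (∀ i, Fix0 Γ (c i) ∧ v (c i) ≤ 1) ∧ ∀ i j, i ≠ j → v (c i - c j) = 1 := by
  set n := p ^ (M + 1) - 1 with hn
  have hpow : M + 1 < p ^ (M + 1) := Nat.lt_pow_self hp.one_lt
  have hMn : M ≤ n := by omega
  have hn1 : n + 1 = p ^ (M + 1) := by omega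
  have hvn : v (n : C) = 1 := by
    have e : (n : C) = (p : C) ^ (M + 1) - 1 := by
      have := congrArg (fun t : ℕ => (t : C)) hn1
      push_cast at this
      rw [← this]; ring
    have hlt : v ((p : C) ^ (M + 1)) < v (1 : C) := by
      rw [map_pow, map_one]
      exact pow_lt_one₀ zero_le h.lt_one (Nat.succ_ne_zero M)
    rw [e, Valuation.map_sub_eq_of_lt_right v hlt, map_one]
  have hn0 : n ≠ 0 := by omega
  have : NeZero (n : C) := ⟨by
    intro h0
    rw [h0, map_zero] at hvn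
    exact zero_ne_one hvn⟩
  have : NeZero n := ⟨hn0⟩
  obtain ⟨ζ, hζ⟩ := HasEnoughRootsOfUnity.exists_primitiveRoot C n
  have hvζ : v ζ = 1 := ResAux.val_eq_one_of_pow_eq_one hn0 hζ.pow_eq_one
  -- the powers of `ζ` are incongruent
  have hlt : ∀ i j : ℕ, j < i → i < n → v (ζ ^ i - ζ ^ j) = 1 := by
    intro i j hji hin
    obtain ⟨d, rfl⟩ := Nat.exists_eq_add_of_lt hji
    have e : ζ ^ (j + d + 1) - ζ ^ j = ζ ^ j * (ζ ^ (d + 1) - 1) := by ring
    rw [e, map_mul, map_pow, hvζ, one_pow, one_mul]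
    refine ResAux.val_sub_one hvn ?_ (hζ.pow_ne_one_of_pos_of_lt (Nat.succ_ne_zero d) (by omega))
    rw [← pow_mul, mul_comm, pow_mul, hζ.pow_eq_one, one_pow]
  have hne : ∀ i j : ℕ, i ≠ j → i < n → j < n → v (ζ ^ i - ζ ^ j) = 1 := by
    intro i j hij hi hj
    rcases lt_or_gt_of_ne hij with h1 | h1
    · rw [Valuation.map_sub_swap]
      exact hlt j i h1 hj
    · exact hlt i j h1 hi
  have hres : ∀ i : ℕ, ∃ y : C, Fix0 Γ y ∧ v (ζ ^ i - y) < 1 := fun i =>
    h.res (ζ ^ i) (by rw [map_pow, hvζ, one_pow])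
  choose y hy1 hy2 using hres
  refine ⟨fun i => y i, fun i => ⟨hy1 i, ?_⟩, fun i j hij => ?_⟩
  · have e : y i = ζ ^ (i : ℕ) - (ζ ^ (i : ℕ) - y i) := by ring
    show v (y i) ≤ 1
    rw [e]
    refine (Valuation.map_sub v _ _).trans (max_le ?_ (hy2 i).le)
    rw [map_pow, hvζ, one_pow]
  · have hij' : (i : ℕ) ≠ (j : ℕ) := fun hh => hij (Fin.ext hh)
    have h1 := hne i j hij' (lt_of_lt_of_le i.2 hMn) (lt_of_lt_of_le j.2 hMn)
    have e : y i - y j = (ζ ^ (i : ℕ) - ζ ^ (j : ℕ)) - ((ζ ^ (i : ℕ) - y i) - (ζ ^ (j : ℕ) - y j)) := by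
      ring
    have h2 : v ((ζ ^ (i : ℕ) - y i) - (ζ ^ (j : ℕ) - y j)) < v (ζ ^ (i : ℕ) - ζ ^ (j : ℕ)) := by
      rw [h1]
      exact lt_of_le_of_lt (Valuation.map_sub v _ _) (max_lt (hy2 i) (hy2 j))
    show v (y i - y j) = 1
    rw [e, Valuation.map_sub_eq_of_lt_left v h2, h1]

end Fermat.Agent.S56.Font
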